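import Mathlib

/-!
# S52 / B3-core, part 1: formal branches (Hensel / Newton iteration in `K[X]` modulo `X ^ (k+1)`)

`Fermat.Agent.S52.B3.H141.exists_branch`: if `F ∈ K[X][Y]` and `ρ` is a simple root of
`F(0, Y)`, then for every `k` there is a polynomial `P ∈ K[X]` of degree `≤ k` with `P(0) = ρ`
and `X ^ (k+1) ∣ F(X, P(X))`.
-/

namespace Fermat.Agent.S52.B3.H141

open Polynomial

/-- Evaluating `G(X, P(X))` at `X = 0` is evaluating `G(0, Y)` at `P(0)`. -/
theorem eval_zero_eval {K : Type*} [CommRing K] (G : K[X][X]) (P : K[X]) :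
    (G.eval P).eval 0 = (G.map (evalRingHom (0 : K))).eval (P.eval 0) := by
  rw [eval_map]
  have h := hom_eval₂ G (RingHom.id K[X]) (evalRingHom (0 : K)) P
  simpa [eval₂_id] using h

/-- Hensel/Newton in `K[X]` modulo powers of `X`: a simple root `ρ` of `F(0, Y)` lifts to a
polynomial `P` of degree `≤ k` with `X ^ (k+1) ∣ F(X, P(X))`. -/
theorem exists_branch {K : Type*} [Field K] (F : K[X][X]) (ρ : K)
    (hroot : (F.map (evalRingHom (0 : K))).eval ρ = 0)
    (hsimple : (derivative (F.map (evalRingHom (0 : K)))).eval ρ ≠ 0) (k : ℕ) :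
    ∃ P : K[X], P.natDegree ≤ k ∧ P.coeff 0 = ρ ∧ X ^ (k + 1) ∣ F.eval P := by
  induction k with
  | zero =>
    refine ⟨C ρ, by simp, by simp, ?_⟩
    rw [zero_add, pow_one, X_dvd_iff, coeff_zero_eq_eval_zero, eval_zero_eval]
    simpa using hroot
  | succ k ih =>
    obtain ⟨P, hdeg, h0, A, hA⟩ := ih
    set lam := (derivative (F.map (evalRingHom (0 : K)))).eval ρ with hlam
    set c : K := - A.coeff 0 / lam with hc
    have hP0 : P.eval 0 = ρ := by rw [← coeff_zero_eq_eval_zero]; exact h0
    refine ⟨P + C c * X ^ (k + 1), ?_, ?_, ?_⟩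
    · refine natDegree_add_le_of_degree_le (hdeg.trans (Nat.le_succ k)) ?_
      exact natDegree_C_mul_X_pow_le c (k + 1)
    · simp [h0]
    · obtain ⟨r, hr⟩ := binomExpansion F P (C c * X ^ (k + 1))
      rw [hr, hA]
      have hX : (X : K[X]) ∣ A + (derivative F).eval P * C c := by
        rw [X_dvd_iff, coeff_add, mul_coeff_zero, coeff_C_zero,
          coeff_zero_eq_eval_zero ((derivative F).eval P), eval_zero_eval, ← derivative_map,
          hP0, ← hlam, hc]
        field_simp
        ring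
      obtain ⟨B, hB⟩ := hX
      refine ⟨B + r * C c ^ 2 * X ^ k, ?_⟩
      have e1 : X ^ (k + 1) * A + (derivative F).eval P * (C c * X ^ (k + 1))
          = X ^ (k + 1) * (A + (derivative F).eval P * C c) := by ring
      rw [e1, hB]
      ring

end Fermat.Agent.S52.B3.H141
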