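import Mathlib

/-!
# S52 / B3-core, part 2: finite differences

* `exists_poly_of_fwdDiff_iter_eq_zero`: an integer sequence whose `r`-th forward difference
  vanishes identically is given by a rational polynomial (Gregory–Newton).
* `eventually_eq_poly_of_tendsto`: an integer sequence `u` with `u k - q(k) → 0` for a real
  polynomial `q` is eventually given by a rational polynomial.
-/

namespace Fermat.Agent.S52.B3.H141

open Polynomial Filter Topology Finset fwdDiff

theorem fwdDiff_iter_zero_fun (r : ℕ) : (fwdDiff 1)^[r] (fun _ : ℕ => (0 : ℤ)) = fun _ => 0 := by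
  induction r with
  | zero => rfl
  | succ r ih => rw [Function.iterate_succ_apply', ih]; exact fwdDiff_const 1 0

/-- An integer sequence whose `r`-th forward difference vanishes identically is given by a
rational polynomial. -/
theorem exists_poly_of_fwdDiff_iter_eq_zero (r : ℕ) (v : ℕ → ℤ)
    (hv : ∀ j, (fwdDiff 1)^[r] v j = 0) :
    ∃ R : ℚ[X], ∀ j : ℕ, (v j : ℚ) = R.eval (j : ℚ) := by
  have hv' : (fwdDiff 1)^[r] v = fun _ => 0 := funext hv
  have hbig : ∀ i, r ≤ i → (fwdDiff 1)^[i] v 0 = 0 := by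
    intro i hi
    obtain ⟨s, rfl⟩ := Nat.exists_eq_add_of_le hi
    rw [add_comm, Function.iterate_add_apply, hv', fwdDiff_iter_zero_fun]
  refine ⟨∑ k ∈ range r, C ((((fwdDiff 1)^[k] v 0 : ℤ) : ℚ) / (k.factorial : ℚ)) * descPochhammer ℚ k, ?_⟩
  intro j
  have h1 := shift_eq_sum_fwdDiff_iter (1 : ℕ) v j 0
  simp only [zero_add, smul_eq_mul, mul_one] at h1
  rw [h1, eval_finsetSum]
  push_cast
  have h2 : ∀ k, ((j.choose k : ℚ) * (((fwdDiff 1)^[k] v 0 : ℤ) : ℚ))
      = eval (j : ℚ) (C ((((fwdDiff 1)^[k] v 0 : ℤ) : ℚ) / (k.factorial : ℚ)) * descPochhammer ℚ k) := by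
    intro k
    rw [Nat.cast_choose_eq_descPochhammer_div ℚ j k, eval_mul, eval_C]
    ring
  simp only [nsmul_eq_mul, Int.cast_mul, Int.cast_natCast, h2]
  -- compare the two ranges
  have hz : ∀ k, r ≤ k →
      eval (j : ℚ) (C ((((fwdDiff 1)^[k] v 0 : ℤ) : ℚ) / (k.factorial : ℚ)) * descPochhammer ℚ k) = 0 := by
    intro k hk
    rw [hbig k hk]; simp
  have hz' : ∀ k, j + 1 ≤ k →
      eval (j : ℚ) (C ((((fwdDiff 1)^[k] v 0 : ℤ) : ℚ) / (k.factorial : ℚ)) * descPochhammer ℚ k) = 0 := by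
    intro k hk
    rw [← h2, Nat.choose_eq_zero_of_lt hk]; simp
  have e1 := Finset.sum_subset (f := fun k => eval (j : ℚ)
      (C ((((fwdDiff 1)^[k] v 0 : ℤ) : ℚ) / (k.factorial : ℚ)) * descPochhammer ℚ k))
      (Finset.range_subset_range.2 (Nat.le_add_right (j + 1) r))
      (fun k _ hk => hz' k (by simpa using hk))
  have e2 := Finset.sum_subset (f := fun k => eval (j : ℚ)
      (C ((((fwdDiff 1)^[k] v 0 : ℤ) : ℚ) / (k.factorial : ℚ)) * descPochhammer ℚ k))
      (Finset.range_subset_range.2 (Nat.le_add_left r (j + 1)))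
      (fun k _ hk => hz k (by simpa using hk))
  exact e1.trans e2.symm

/-- The `r`-th forward difference of the sequence of values of a real polynomial of degree `< r`
at the natural numbers vanishes (sum form). -/
theorem sum_shift_poly_eq_zero (q : ℝ[X]) (r : ℕ) (hq : q.natDegree < r) (k : ℕ) :
    ∑ j ∈ range (r + 1), (((-1 : ℤ) ^ (r - j) * (r.choose j : ℤ) : ℤ) : ℝ)
      * q.eval ((k + j : ℕ) : ℝ) = 0 := by
  have h := congrFun (Polynomial.fwdDiff_iter_eq_zero_of_degree_lt hq) (k : ℝ)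
  rw [fwdDiff_iter_eq_sum_shift] at h
  simp only [Pi.zero_apply, zsmul_eq_mul, nsmul_eq_mul, mul_one] at h
  rw [← h]
  refine Finset.sum_congr rfl fun j _ => ?_
  push_cast
  ring

/-- An integer sequence `u` with `u k - q(k) → 0` for a real polynomial `q` is eventually given
by a rational polynomial. -/
theorem eventually_eq_poly_of_tendsto (q : ℝ[X]) (u : ℕ → ℤ)
    (hclose : Tendsto (fun k : ℕ => (u k : ℝ) - q.eval (k : ℝ)) atTop (𝓝 0)) :
    ∃ (R : ℚ[X]) (K : ℕ), ∀ k : ℕ, K ≤ k → (u k : ℚ) = R.eval (k : ℚ) := by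
  set r := q.natDegree + 1 with hr
  -- the r-th difference of `u`, cast to ℝ, tends to 0
  have hsum : ∀ k, (((fwdDiff 1)^[r] u k : ℤ) : ℝ) =
      ∑ j ∈ range (r + 1), (((-1 : ℤ) ^ (r - j) * (r.choose j : ℤ) : ℤ) : ℝ)
        * ((u (k + j) : ℝ) - q.eval ((k + j : ℕ) : ℝ)) := by
    intro k
    rw [fwdDiff_iter_eq_sum_shift]
    simp only [mul_sub, Finset.sum_sub_distrib]
    rw [sum_shift_poly_eq_zero q r (Nat.lt_succ_self _) k, sub_zero]
    push_cast
    refine Finset.sum_congr rfl fun j _ => ?_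
    simp
  have htend : Tendsto (fun k => (((fwdDiff 1)^[r] u k : ℤ) : ℝ)) atTop (𝓝 0) := by
    simp only [hsum]
    have : (0 : ℝ) = ∑ j ∈ range (r + 1),
        (((-1 : ℤ) ^ (r - j) * (r.choose j : ℤ) : ℤ) : ℝ) * 0 := by simp
    rw [this]
    refine tendsto_finsetSum _ fun j _ => Tendsto.const_mul _ ?_
    exact hclose.comp (tendsto_add_atTop_nat j)
  have hev : ∀ᶠ k in atTop, (fwdDiff 1)^[r] u k = 0 := by
    have := htend.eventually (Metric.ball_mem_nhds (0 : ℝ) one_pos)
    filter_upwards [this] with k hk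
    rw [dist_zero_right, Real.norm_eq_abs] at hk
    have : |(fwdDiff 1)^[r] u k| < 1 := by exact_mod_cast hk
    exact Int.abs_lt_one_iff.1 this
  obtain ⟨K, hK⟩ := eventually_atTop.1 hev
  obtain ⟨R₀, hR₀⟩ := exists_poly_of_fwdDiff_iter_eq_zero r (fun j => u (j + K)) (by
    intro j
    rw [fwdDiff_iter_comp_add]
    exact hK _ (Nat.le_add_left _ _))
  refine ⟨R₀.comp (X - C (K : ℚ)), K, fun k hk => ?_⟩
  obtain ⟨j, rfl⟩ := Nat.exists_eq_add_of_le hk
  have := hR₀ j
  simp only [add_comm j K] at this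
  rw [this]
  simp

end Fermat.Agent.S52.B3.H141
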