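import Fermat.Agent.S52.B3.H141.Setup

/-!
# S52 / B3-core: abstract Hilbert irreducibility "by hand"

`G(n, u) = u ^ m + ∑_{i<m} g_i(n) u ^ i`, `g_i ∈ ℤ[n]`, `deg g_i ≤ (m - i) d`.
Limit polynomial `G∞(ξ) = ξ ^ m + ∑ γ_i ξ ^ i`, `γ_i` = coefficient of `n ^ ((m - i) d)` in `g_i`.
If the real roots of `G∞` are simple, at most one of them is irrational, and `G` has no root in
`ℚ[n]`, then every arithmetic progression `a + M ℕ` (`M > 0`) contains `n` such that `G(n, ·)` has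
no integer root (`hit_core`), and in fact such `n` occur beyond any bound (`hit_core_frequently`).
-/

namespace Fermat.Agent.S52.B3.H141

open Polynomial Filter Topology Finset

noncomputable section

variable (m d : ℕ) (g : ℕ → ℤ[X])

/-- Step 1: a formal branch through every simple real root of `G∞`, with rational coefficients
if the root is rational. -/
theorem exists_real_branch (ρ : ℝ) (hroot : (GinfK ℝ m d g).eval ρ = 0)
    (hsimple : (derivative (GinfK ℝ m d g)).eval ρ ≠ 0) :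
    ∃ P : ℝ[X], P.natDegree ≤ d ∧ P.eval 0 = ρ ∧
      X ^ (d + 1) ∣ P ^ m + ∑ i ∈ range m, hK ℝ m d g i * P ^ i ∧
      (∀ r : ℚ, (r : ℝ) = ρ → ∃ P₀ : ℚ[X], P₀.natDegree ≤ d ∧ P = P₀.map (algebraMap ℚ ℝ)) := by
  by_cases hrat : ∃ r : ℚ, (r : ℝ) = ρ
  · obtain ⟨r, rfl⟩ := hrat
    have hroot' : ((FK ℚ m d g).map (evalRingHom 0)).eval r = 0 := by
      rw [FK_map_eval0]
      have h1 : ((GinfK ℚ m d g).map (algebraMap ℚ ℝ)).eval ((algebraMap ℚ ℝ) r) = 0 := by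
        rw [GinfK_map]; exact hroot
      rw [eval_map_apply] at h1
      exact (map_eq_zero (algebraMap ℚ ℝ)).1 h1
    have hsimple' : (derivative ((FK ℚ m d g).map (evalRingHom 0))).eval r ≠ 0 := by
      rw [FK_map_eval0]
      intro h0
      apply hsimple
      have h1 : ((derivative (GinfK ℚ m d g)).map (algebraMap ℚ ℝ)).eval ((algebraMap ℚ ℝ) r)
          = 0 := by
        rw [eval_map_apply, h0, map_zero]
      rw [← derivative_map, GinfK_map] at h1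
      exact h1
    obtain ⟨P₀, hdeg₀, hcoeff₀, hdvd₀⟩ := exists_branch (FK ℚ m d g) r hroot' hsimple' d
    refine ⟨P₀.map (algebraMap ℚ ℝ), natDegree_map_le.trans hdeg₀, ?_, ?_, ?_⟩
    · rw [← coeff_zero_eq_eval_zero, coeff_map, hcoeff₀]; rfl
    · rw [FK_eval] at hdvd₀
      have := Polynomial.map_dvd (algebraMap ℚ ℝ) hdvd₀
      simpa only [Polynomial.map_add, Polynomial.map_pow, map_X, Polynomial.map_sum,
        Polynomial.map_mul, hK_map] using this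
    · intro r' _
      exact ⟨P₀, hdeg₀, rfl⟩
  · have hroot' : ((FK ℝ m d g).map (evalRingHom 0)).eval ρ = 0 := by
      rw [FK_map_eval0]; exact hroot
    have hsimple' : (derivative ((FK ℝ m d g).map (evalRingHom 0))).eval ρ ≠ 0 := by
      rw [FK_map_eval0]; exact hsimple
    obtain ⟨P, hdeg, hcoeff, hdvd⟩ := exists_branch (FK ℝ m d g) ρ hroot' hsimple' d
    refine ⟨P, hdeg, ?_, ?_, ?_⟩
    · rw [← coeff_zero_eq_eval_zero, hcoeff]
    · rwa [FK_eval] at hdvd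
    · intro r hr
      exact absurd ⟨r, hr⟩ hrat

theorem finite_roots_Ginf : {ρ : ℝ | (GinfK ℝ m d g).eval ρ = 0}.Finite :=
  Polynomial.finite_setOfPred_isRoot (GinfK_ne_zero m d g)

/-- Step 3: real closeness in the `n`-world. -/
theorem eventually_close (hdeg : ∀ i < m, (g i).natDegree ≤ (m - i) * d)
    (hsimple : ∀ ρ : ℝ, (GinfK ℝ m d g).eval ρ = 0 → (derivative (GinfK ℝ m d g)).eval ρ ≠ 0)
    (P : ℝ → ℝ[X])
    (hP : ∀ ρ, (GinfK ℝ m d g).eval ρ = 0 → (P ρ).natDegree ≤ d ∧ (P ρ).eval 0 = ρ ∧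
      X ^ (d + 1) ∣ (P ρ) ^ m + ∑ i ∈ range m, hK ℝ m d g i * (P ρ) ^ i) :
    ∃ C : ℝ → ℝ, ∀ᶠ n : ℕ in atTop, ∀ u : ℝ,
      u ^ m + ∑ i ∈ range m, (gK ℝ g i).eval (n : ℝ) * u ^ i = 0 →
      ∃ ρ, (GinfK ℝ m d g).eval ρ = 0 ∧ |u - (reflect d (P ρ)).eval (n : ℝ)| ≤ C ρ / n := by
  have hbr : ∀ ρ : ℝ, ∃ δ C : ℝ, (GinfK ℝ m d g).eval ρ = 0 → 0 < δ ∧
      ∀ᶠ t in 𝓝[>] (0 : ℝ), ∀ ξ, |ξ - ρ| < δ → Hfun m (hK ℝ m d g) t ξ = 0 →
        |ξ - (P ρ).eval t| ≤ C * t ^ (d + 1) := by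
    intro ρ
    by_cases hρ : (GinfK ℝ m d g).eval ρ = 0
    · obtain ⟨δ, hδ, C, hC⟩ := eventually_close_branch m (hK ℝ m d g) ρ
        (by rw [Sfun_zero]; exact hsimple ρ hρ) d (P ρ) (hP ρ hρ).2.1 (hP ρ hρ).2.2
      exact ⟨δ, C, fun _ => ⟨hδ, hC⟩⟩
    · exact ⟨0, 0, fun h => absurd h hρ⟩
  choose δ C hδC using hbr
  have hnear := eventually_near_root m (hK ℝ m d g) δ
    (fun ρ hρ => (hδC ρ (by rwa [← Hfun_zero])).1)
  have hall : ∀ᶠ t in 𝓝[>] (0 : ℝ), ∀ ρ ∈ {ρ : ℝ | (GinfK ℝ m d g).eval ρ = 0},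
      ∀ ξ, |ξ - ρ| < δ ρ → Hfun m (hK ℝ m d g) t ξ = 0 →
        |ξ - (P ρ).eval t| ≤ C ρ * t ^ (d + 1) :=
    (eventually_all_finite (finite_roots_Ginf m d g)).2 (fun ρ hρ => (hδC ρ hρ).2)
  have htend : Tendsto (fun n : ℕ => ((n : ℝ))⁻¹) atTop (𝓝[>] 0) :=
    tendsto_inv_atTop_nhdsGT_zero.comp tendsto_natCast_atTop_atTop
  refine ⟨C, ?_⟩
  filter_upwards [htend.eventually hnear, htend.eventually hall, eventually_gt_atTop 0]
    with n h1 h2 hn u hu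
  have hxpos : (0 : ℝ) < n := by exact_mod_cast hn
  have hx : (n : ℝ) ≠ 0 := hxpos.ne'
  rw [G_eq_H m d g hdeg n hx u] at hu
  have hH : Hfun m (hK ℝ m d g) (n : ℝ)⁻¹ (u / (n : ℝ) ^ d) = 0 :=
    (mul_eq_zero.1 hu).resolve_left (pow_ne_zero _ hx)
  obtain ⟨ρ, hρ, hclose⟩ := h1 _ hH
  have hρ' : (GinfK ℝ m d g).eval ρ = 0 := by rwa [← Hfun_zero]
  refine ⟨ρ, hρ', ?_⟩
  have h3 := h2 ρ hρ' _ hclose hH
  rw [reflect_eval_inv d (P ρ) (hP ρ hρ').1 n hx]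
  have e : u - (P ρ).eval (n : ℝ)⁻¹ * (n : ℝ) ^ d
      = (n : ℝ) ^ d * (u / (n : ℝ) ^ d - (P ρ).eval (n : ℝ)⁻¹) := by
    field_simp
  rw [e, abs_mul, abs_of_pos (pow_pos hxpos d)]
  calc (n : ℝ) ^ d * |u / (n : ℝ) ^ d - (P ρ).eval (n : ℝ)⁻¹|
      ≤ (n : ℝ) ^ d * (C ρ * ((n : ℝ)⁻¹) ^ (d + 1)) :=
        mul_le_mul_of_nonneg_left h3 (pow_pos hxpos d).le
    _ = C ρ / n := by
        rw [pow_succ, inv_pow]
        field_simp

/-- A rational polynomial has a common denominator for its values at the natural numbers. -/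
theorem exists_denom (Q : ℚ[X]) :
    ∃ D : ℕ, 0 < D ∧ ∀ n : ℕ, ∃ z : ℤ, (D : ℚ) * Q.eval (n : ℚ) = z := by
  induction Q using Polynomial.induction_on' with
  | add p q hp hq =>
    obtain ⟨D₁, h₁, H₁⟩ := hp
    obtain ⟨D₂, h₂, H₂⟩ := hq
    refine ⟨D₁ * D₂, Nat.mul_pos h₁ h₂, fun n => ?_⟩
    obtain ⟨z₁, hz₁⟩ := H₁ n
    obtain ⟨z₂, hz₂⟩ := H₂ n
    refine ⟨D₂ * z₁ + D₁ * z₂, ?_⟩
    push_cast
    rw [eval_add, ← hz₁, ← hz₂]
    ring
  | monomial k c =>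
    refine ⟨c.den, c.den_pos, fun n => ⟨c.num * (n : ℤ) ^ k, ?_⟩⟩
    rw [eval_monomial, ← mul_assoc, Rat.den_mul_eq_num]
    push_cast
    ring

/-- An integer within `c / n` of the value at `n` of a rational polynomial is equal to that
value, for large `n`. -/
theorem eventually_int_eq_of_close (Q : ℚ[X]) (c : ℝ) :
    ∀ᶠ n : ℕ in atTop, ∀ u : ℤ, |(u : ℝ) - ((Q.eval (n : ℚ) : ℚ) : ℝ)| ≤ c / n →
      (u : ℚ) = Q.eval (n : ℚ) := by
  obtain ⟨D, hD, hz⟩ := exists_denom Q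
  filter_upwards [eventually_gt_atTop ⌈(D : ℝ) * c⌉₊, eventually_gt_atTop 0] with n hn hn0 u hu
  obtain ⟨z, hz⟩ := hz n
  have hnpos : (0 : ℝ) < n := by exact_mod_cast hn0
  have hDpos : (0 : ℝ) < D := by exact_mod_cast hD
  have h1 : (D : ℝ) * c < n := (Nat.le_ceil _).trans_lt (by exact_mod_cast hn)
  have hz' : ((z : ℤ) : ℝ) = (D : ℝ) * ((Q.eval (n : ℚ) : ℚ) : ℝ) := by
    have := congrArg (fun q : ℚ => (q : ℝ)) hz
    simp only [Rat.cast_mul, Rat.cast_natCast, Rat.cast_intCast] at this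
    exact this.symm
  have h2 : |(((D : ℤ) * u - z : ℤ) : ℝ)| < 1 := by
    have e : (((D : ℤ) * u - z : ℤ) : ℝ) = D * ((u : ℝ) - ((Q.eval (n : ℚ) : ℚ) : ℝ)) := by
      push_cast
      rw [hz']
      ring
    rw [e, abs_mul, abs_of_pos hDpos]
    calc (D : ℝ) * |(u : ℝ) - ((Q.eval (n : ℚ) : ℚ) : ℝ)| ≤ D * (c / n) :=
          mul_le_mul_of_nonneg_left hu hDpos.le
      _ = (D * c) / n := by ring
      _ < 1 := by rw [div_lt_one hnpos]; exact h1
  have h3 : (D : ℤ) * u - z = 0 := Int.abs_lt_one_iff.1 (by exact_mod_cast h2)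
  have hDne : (D : ℚ) ≠ 0 := by exact_mod_cast hD.ne'
  have h4 : (D : ℚ) * u = D * Q.eval (n : ℚ) := by
    rw [hz]
    exact_mod_cast sub_eq_zero.1 h3
  exact mul_left_cancel₀ hDne h4

theorem eventually_eval_ne_zero (T : ℚ[X]) (hT : T ≠ 0) :
    ∀ᶠ n : ℕ in atTop, T.eval (n : ℚ) ≠ 0 :=
  tendsto_natCast_atTop_atTop.eventually (Polynomial.eventually_atTop_not_isRoot T hT)

theorem tendsto_progression (a M : ℕ) (hM : 0 < M) :
    Tendsto (fun k : ℕ => a + M * k) atTop atTop := by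
  refine tendsto_atTop_mono (fun k => ?_) tendsto_id
  show k ≤ a + M * k
  nlinarith

/-- **Abstract Hilbert irreducibility by hand** (general degree `m`). -/
theorem hit_core
    (hdeg : ∀ i < m, (g i).natDegree ≤ (m - i) * d)
    (hsimple : ∀ ρ : ℝ, (GinfK ℝ m d g).eval ρ = 0 → (derivative (GinfK ℝ m d g)).eval ρ ≠ 0)
    (hirr : ∀ ρ ρ' : ℝ, (GinfK ℝ m d g).eval ρ = 0 → (GinfK ℝ m d g).eval ρ' = 0 →
      Irrational ρ → Irrational ρ' → ρ = ρ')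
    (hnoroot : ∀ w : ℚ[X], w ^ m + ∑ i ∈ range m, (g i).map (Int.castRingHom ℚ) * w ^ i ≠ 0)
    (a M : ℕ) (hM : 0 < M) :
    ∃ k : ℕ, ∀ u : ℤ, u ^ m + ∑ i ∈ range m, (g i).eval ((a + M * k : ℕ) : ℤ) * u ^ i ≠ 0 := by
  by_contra hcon
  push Not at hcon
  choose u hu using hcon
  -- real form of the equation
  have hreal : ∀ k : ℕ, ((u k : ℤ) : ℝ) ^ m
      + ∑ i ∈ range m, (gK ℝ g i).eval (((a + M * k : ℕ) : ℕ) : ℝ) * ((u k : ℤ) : ℝ) ^ i = 0 := by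
    intro k
    have := congrArg (fun z : ℤ => (z : ℝ)) (hu k)
    simp only [Int.cast_add, Int.cast_pow, Int.cast_sum, Int.cast_mul, Int.cast_zero] at this
    rw [← this]
    congr 1
    refine Finset.sum_congr rfl fun i _ => ?_
    congr 1
    unfold gK
    rw [eval_natCast_map]
    simp
  -- branches
  have hbr : ∀ ρ : ℝ, ∃ P : ℝ[X], (GinfK ℝ m d g).eval ρ = 0 →
      P.natDegree ≤ d ∧ P.eval 0 = ρ ∧
      X ^ (d + 1) ∣ P ^ m + ∑ i ∈ range m, hK ℝ m d g i * P ^ i ∧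
      (∀ r : ℚ, (r : ℝ) = ρ → ∃ P₀ : ℚ[X], P₀.natDegree ≤ d ∧ P = P₀.map (algebraMap ℚ ℝ)) := by
    intro ρ
    by_cases hρ : (GinfK ℝ m d g).eval ρ = 0
    · obtain ⟨P, hP⟩ := exists_real_branch m d g ρ hρ (hsimple ρ hρ)
      exact ⟨P, fun _ => hP⟩
    · exact ⟨0, fun h => absurd h hρ⟩
  choose P hP using hbr
  obtain ⟨cc, hC⟩ := eventually_close m d g hdeg hsimple P
    (fun ρ hρ => ⟨(hP ρ hρ).1, (hP ρ hρ).2.1, (hP ρ hρ).2.2.1⟩)
  -- rational roots are excluded eventually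
  have hrat : ∀ ρ ∈ {ρ : ℝ | (GinfK ℝ m d g).eval ρ = 0}, ∀ᶠ n : ℕ in atTop,
      ¬ Irrational ρ → ∀ w : ℤ, |(w : ℝ) - (reflect d (P ρ)).eval (n : ℝ)| ≤ cc ρ / n →
        (w : ℝ) ^ m + ∑ i ∈ range m, (gK ℝ g i).eval (n : ℝ) * (w : ℝ) ^ i ≠ 0 := by
    intro ρ hρ
    by_cases hi : Irrational ρ
    · exact Eventually.of_forall (fun n h => absurd hi h)
    obtain ⟨r, rfl⟩ : ∃ r : ℚ, (r : ℝ) = ρ := by
      unfold Irrational at hi
      push Not at hi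
      simpa using hi
    obtain ⟨P₀, hP₀deg, hP₀⟩ := (hP _ hρ).2.2.2 r rfl
    have hT := hnoroot (reflect d P₀)
    filter_upwards [eventually_int_eq_of_close (reflect d P₀) (cc r),
      eventually_eval_ne_zero _ hT] with n h1 h2 _ w hw
    have e : (reflect d (P (r : ℝ))).eval (n : ℝ)
        = (((reflect d P₀).eval (n : ℚ) : ℚ) : ℝ) := by
      rw [hP₀, reflect_map, eval_natCast_map]
      simp
    rw [e] at hw
    have hwQ := h1 w hw
    intro hzero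
    apply h2
    rw [eval_add, eval_pow, eval_finsetSum]
    simp only [eval_mul, eval_pow, ← hwQ, eval_natCast_map]
    have hinj : Function.Injective ((↑) : ℚ → ℝ) := Rat.cast_injective
    apply hinj
    push_cast
    rw [← hzero]
    congr 1
    refine Finset.sum_congr rfl fun i _ => ?_
    congr 1
    unfold gK
    rw [eval_natCast_map]
    simp
  have hrat' := (eventually_all_finite (finite_roots_Ginf m d g)).2 hrat
  have hprog := tendsto_progression a M hM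
  -- eventually, `u k` is close to an irrational branch
  have hev : ∀ᶠ k in atTop, ∃ ρ, (GinfK ℝ m d g).eval ρ = 0 ∧ Irrational ρ ∧
      |((u k : ℤ) : ℝ) - (reflect d (P ρ)).eval (((a + M * k : ℕ) : ℕ) : ℝ)|
        ≤ cc ρ / (((a + M * k : ℕ) : ℕ) : ℝ) := by
    filter_upwards [hprog.eventually hC, hprog.eventually hrat'] with k h1 h2
    obtain ⟨ρ, hρ, hclose⟩ := h1 _ (hreal k)
    refine ⟨ρ, hρ, ?_, hclose⟩
    by_contra hni
    exact h2 ρ hρ hni (u k) hclose (hreal k)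
  obtain ⟨k₀, ρ, hρ, hρirr, -⟩ := hev.exists
  have hev' : ∀ᶠ k in atTop,
      |((u k : ℤ) : ℝ) - (reflect d (P ρ)).eval (((a + M * k : ℕ) : ℕ) : ℝ)|
        ≤ cc ρ / (((a + M * k : ℕ) : ℕ) : ℝ) := by
    filter_upwards [hev] with k hk
    obtain ⟨ρ', hρ', hρ'irr, hcl⟩ := hk
    rwa [hirr ρ ρ' hρ hρ' hρirr hρ'irr]
  -- the real polynomial `q(k) = Q_ρ(a + M k)`
  set q : ℝ[X] := (reflect d (P ρ)).comp (C (a : ℝ) + C (M : ℝ) * X) with hqdef
  have hq : ∀ k : ℕ, q.eval (k : ℝ) = (reflect d (P ρ)).eval (((a + M * k : ℕ) : ℕ) : ℝ) := by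
    intro k
    simp [hqdef, eval_comp]
  have htend : Tendsto (fun k : ℕ => ((u k : ℤ) : ℝ) - q.eval (k : ℝ)) atTop (𝓝 0) := by
    refine squeeze_zero_norm' (a := fun k : ℕ => cc ρ / (((a + M * k : ℕ) : ℕ) : ℝ)) ?_ ?_
    · filter_upwards [hev'] with k hk
      rw [Real.norm_eq_abs, hq]
      exact hk
    · exact tendsto_const_nhds.div_atTop (tendsto_natCast_atTop_atTop.comp hprog)
  obtain ⟨R, K, hR⟩ := eventually_eq_poly_of_tendsto q u htend
  -- the rational polynomial root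
  set Rt : ℚ[X] := R.comp (C (1 / (M : ℚ)) * (X - C (a : ℚ))) with hRtdef
  have hMQ : (M : ℚ) ≠ 0 := by exact_mod_cast hM.ne'
  have hRt : ∀ k : ℕ, Rt.eval (((a + M * k : ℕ) : ℕ) : ℚ) = R.eval (k : ℚ) := by
    intro k
    simp only [hRtdef, eval_comp, eval_mul, eval_C, eval_sub, eval_X]
    congr 1
    push_cast
    field_simp
    ring
  have hT := hnoroot Rt
  have h1 := hprog.eventually (eventually_eval_ne_zero _ hT)
  have h2 : ∀ᶠ k in atTop, K ≤ k := eventually_ge_atTop K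
  obtain ⟨k, hk1, hk2⟩ := (h1.and h2).exists
  apply hk1
  rw [eval_add, eval_pow, eval_finsetSum]
  simp only [eval_mul, eval_pow, hRt, ← hR k hk2, eval_natCast_map]
  have := congrArg (fun z : ℤ => (z : ℚ)) (hu k)
  simp only [Int.cast_add, Int.cast_pow, Int.cast_sum, Int.cast_mul, Int.cast_zero] at this
  rw [← this]
  congr 1

end

end Fermat.Agent.S52.B3.H141
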