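import Fermat.Agent.S52.B3.H141.HIT

/-!
# S52 / B3-core: corollaries of `hit_core`

* `hit_core_frequently`: the good `n = a + M k` occur for arbitrarily large `k`;
* `hit_quartic`: the quartic case in fully explicit form (no auxiliary definitions in the
  statement): `G(n, u) = u⁴ + g₃(n) u³ + g₂(n) u² + g₁(n) u + g₀(n)`.
-/

namespace Fermat.Agent.S52.B3.H141

open Polynomial Filter Topology Finset

noncomputable section

/-- `hit_core` with `k` beyond any prescribed bound. -/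
theorem hit_core_frequently (m d : ℕ) (g : ℕ → ℤ[X])
    (hdeg : ∀ i < m, (g i).natDegree ≤ (m - i) * d)
    (hsimple : ∀ ρ : ℝ, (GinfK ℝ m d g).eval ρ = 0 → (derivative (GinfK ℝ m d g)).eval ρ ≠ 0)
    (hirr : ∀ ρ ρ' : ℝ, (GinfK ℝ m d g).eval ρ = 0 → (GinfK ℝ m d g).eval ρ' = 0 →
      Irrational ρ → Irrational ρ' → ρ = ρ')
    (hnoroot : ∀ w : ℚ[X], w ^ m + ∑ i ∈ range m, (g i).map (Int.castRingHom ℚ) * w ^ i ≠ 0)
    (a M : ℕ) (hM : 0 < M) (K₀ : ℕ) :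
    ∃ k : ℕ, K₀ ≤ k ∧
      ∀ u : ℤ, u ^ m + ∑ i ∈ range m, (g i).eval ((a + M * k : ℕ) : ℤ) * u ^ i ≠ 0 := by
  obtain ⟨k, hk⟩ := hit_core m d g hdeg hsimple hirr hnoroot (a + M * K₀) M hM
  refine ⟨K₀ + k, Nat.le_add_right _ _, ?_⟩
  have e : a + M * (K₀ + k) = a + M * K₀ + M * k := by ring
  rw [e]
  exact hk

/-- The coefficient family of a quartic. -/
def quarticFam (g₀ g₁ g₂ g₃ : ℤ[X]) : ℕ → ℤ[X]
  | 0 => g₀
  | 1 => g₁
  | 2 => g₂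
  | _ => g₃

theorem GinfK_quartic (d : ℕ) (g₀ g₁ g₂ g₃ : ℤ[X]) (ρ : ℝ) :
    (GinfK ℝ 4 d (quarticFam g₀ g₁ g₂ g₃)).eval ρ
      = ρ ^ 4 + (g₃.coeff d : ℝ) * ρ ^ 3 + (g₂.coeff (2 * d) : ℝ) * ρ ^ 2
        + (g₁.coeff (3 * d) : ℝ) * ρ + (g₀.coeff (4 * d) : ℝ) := by
  unfold GinfK
  simp only [Finset.sum_range_succ, Finset.sum_range_zero, quarticFam, eval_add, eval_pow,
    eval_X, eval_mul, eval_C, zero_add, pow_zero, pow_one, mul_one, Nat.sub_zero,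
    Nat.reduceSub, one_mul]
  ring

theorem GinfK_quartic_derivative (d : ℕ) (g₀ g₁ g₂ g₃ : ℤ[X]) (ρ : ℝ) :
    (derivative (GinfK ℝ 4 d (quarticFam g₀ g₁ g₂ g₃))).eval ρ
      = 4 * ρ ^ 3 + 3 * (g₃.coeff d : ℝ) * ρ ^ 2 + 2 * (g₂.coeff (2 * d) : ℝ) * ρ
        + (g₁.coeff (3 * d) : ℝ) := by
  unfold GinfK
  simp only [Finset.sum_range_succ, Finset.sum_range_zero, quarticFam, derivative_add,
    derivative_X_pow, derivative_mul, derivative_C, derivative_X, eval_add, eval_pow,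
    eval_X, eval_mul, eval_C, zero_add, pow_zero, pow_one, mul_one, Nat.sub_zero,
    Nat.reduceSub, one_mul, zero_mul, Nat.cast_ofNat]
  ring

/-- **Abstract Hilbert irreducibility by hand, quartic case** (statement of
`coord/S52.md` §3, B3 abstract core).

`G(n, u) = u⁴ + g₃(n) u³ + g₂(n) u² + g₁(n) u + g₀(n)` with `gᵢ ∈ ℤ[n]`, `deg gᵢ ≤ (4 - i) d`;
the limit quartic `G∞(ξ) = ξ⁴ + γ₃ ξ³ + γ₂ ξ² + γ₁ ξ + γ₀` (`γᵢ` the coefficient of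
`n ^ ((4 - i) d)` in `gᵢ`) has simple real roots, and apart from (possibly) the rational number
`r` it has at most one real root; `G` has no root in `ℚ[n]`.  Then for every progression
`a + M ℕ` (`M > 0`) and every bound `K₀` there is `k ≥ K₀` such that `G(a + M k, ·)` has no
integer root. -/
theorem hit_quartic (d : ℕ) (g₀ g₁ g₂ g₃ : ℤ[X])
    (h₀ : g₀.natDegree ≤ 4 * d) (h₁ : g₁.natDegree ≤ 3 * d) (h₂ : g₂.natDegree ≤ 2 * d)
    (h₃ : g₃.natDegree ≤ d)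
    (hsimple : ∀ ρ : ℝ,
      ρ ^ 4 + (g₃.coeff d : ℝ) * ρ ^ 3 + (g₂.coeff (2 * d) : ℝ) * ρ ^ 2
        + (g₁.coeff (3 * d) : ℝ) * ρ + (g₀.coeff (4 * d) : ℝ) = 0 →
      4 * ρ ^ 3 + 3 * (g₃.coeff d : ℝ) * ρ ^ 2 + 2 * (g₂.coeff (2 * d) : ℝ) * ρ
        + (g₁.coeff (3 * d) : ℝ) ≠ 0)
    (r : ℚ)
    (htwo : ∀ ρ ρ' : ℝ,
      ρ ^ 4 + (g₃.coeff d : ℝ) * ρ ^ 3 + (g₂.coeff (2 * d) : ℝ) * ρ ^ 2
        + (g₁.coeff (3 * d) : ℝ) * ρ + (g₀.coeff (4 * d) : ℝ) = 0 →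
      ρ' ^ 4 + (g₃.coeff d : ℝ) * ρ' ^ 3 + (g₂.coeff (2 * d) : ℝ) * ρ' ^ 2
        + (g₁.coeff (3 * d) : ℝ) * ρ' + (g₀.coeff (4 * d) : ℝ) = 0 →
      ρ ≠ (r : ℝ) → ρ' ≠ (r : ℝ) → ρ = ρ')
    (hnoroot : ∀ w : ℚ[X],
      w ^ 4 + g₃.map (Int.castRingHom ℚ) * w ^ 3 + g₂.map (Int.castRingHom ℚ) * w ^ 2
        + g₁.map (Int.castRingHom ℚ) * w + g₀.map (Int.castRingHom ℚ) ≠ 0)
    (a M : ℕ) (hM : 0 < M) (K₀ : ℕ) :
    ∃ k : ℕ, K₀ ≤ k ∧ ∀ u : ℤ,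
      u ^ 4 + g₃.eval ((a + M * k : ℕ) : ℤ) * u ^ 3 + g₂.eval ((a + M * k : ℕ) : ℤ) * u ^ 2
        + g₁.eval ((a + M * k : ℕ) : ℤ) * u + g₀.eval ((a + M * k : ℕ) : ℤ) ≠ 0 := by
  have hdeg : ∀ i < 4, (quarticFam g₀ g₁ g₂ g₃ i).natDegree ≤ (4 - i) * d := by
    intro i hi
    interval_cases i
    · simpa [quarticFam] using h₀
    · simpa [quarticFam] using h₁
    · simpa [quarticFam] using h₂
    · simpa [quarticFam] using h₃
  obtain ⟨k, hk, hk'⟩ := hit_core_frequently 4 d (quarticFam g₀ g₁ g₂ g₃) hdeg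
    (fun ρ hρ => by
      rw [GinfK_quartic_derivative]
      rw [GinfK_quartic] at hρ
      exact hsimple ρ hρ)
    (fun ρ ρ' hρ hρ' hi hi' => by
      rw [GinfK_quartic] at hρ hρ'
      exact htwo ρ ρ' hρ hρ' (hi.ne_rat r) (hi'.ne_rat r))
    (fun w => by
      have := hnoroot w
      simp only [Finset.sum_range_succ, Finset.sum_range_zero, quarticFam, zero_add, pow_zero,
        pow_one, mul_one]
      intro h0
      apply this
      rw [← h0]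
      ring)
    a M hM K₀
  refine ⟨k, hk, fun u => ?_⟩
  have := hk' u
  simp only [Finset.sum_range_succ, Finset.sum_range_zero, quarticFam, zero_add, pow_zero,
    pow_one, mul_one] at this
  intro h0
  apply this
  rw [← h0]
  ring

end

end Fermat.Agent.S52.B3.H141
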