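import Mathlib

/-!
# S52 / B3-core, part 3: real closeness

For `H(t, ξ) = ξ ^ m + ∑_{i<m} h_i(t) ξ ^ i` with `h_i ∈ ℝ[t]`:
* roots of `H(t, ·)` for `t ∈ [0,1]` are bounded (`exists_bound`);
* for small `t ≥ 0` every real root of `H(t, ·)` is close to a real root of `H(0, ·)`
  (`eventually_near_root`);
* near a simple root `ρ` of `H(0, ·)` with a formal branch `P` modulo `t ^ (k+1)`, every real root
  `ξ` of `H(t, ·)` close to `ρ` satisfies `|ξ - P(t)| ≤ C t ^ (k+1)` (`eventually_close_branch`).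
-/

namespace Fermat.Agent.S52.B3.H141

open Polynomial Filter Topology Finset

noncomputable section

/-- `H(t, ξ) = ξ ^ m + ∑_{i<m} h_i(t) ξ ^ i`. -/
def Hfun (m : ℕ) (h : ℕ → ℝ[X]) (t ξ : ℝ) : ℝ :=
  ξ ^ m + ∑ i ∈ range m, (h i).eval t * ξ ^ i

/-- Divided difference of `H` in the second variable. -/
def Sfun (m : ℕ) (h : ℕ → ℝ[X]) (t ξ η : ℝ) : ℝ :=
  ∑ j ∈ range m, ξ ^ j * η ^ (m - 1 - j)
    + ∑ i ∈ range m, (h i).eval t * ∑ j ∈ range i, ξ ^ j * η ^ (i - 1 - j)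

theorem Hfun_sub (m : ℕ) (h : ℕ → ℝ[X]) (t ξ η : ℝ) :
    Hfun m h t ξ - Hfun m h t η = Sfun m h t ξ η * (ξ - η) := by
  unfold Hfun Sfun
  rw [add_mul, geom_sum₂_mul, Finset.sum_mul]
  have : ∀ i ∈ range m, (h i).eval t * (∑ j ∈ range i, ξ ^ j * η ^ (i - 1 - j)) * (ξ - η)
      = (h i).eval t * ξ ^ i - (h i).eval t * η ^ i := by
    intro i _
    rw [mul_assoc, geom_sum₂_mul]; ring
  rw [Finset.sum_congr rfl this, Finset.sum_sub_distrib]; ring

theorem continuous_Hfun (m : ℕ) (h : ℕ → ℝ[X]) :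
    Continuous fun p : ℝ × ℝ => Hfun m h p.1 p.2 := by
  unfold Hfun
  refine (continuous_snd.pow m).add (continuous_finsetSum _ fun i _ => ?_)
  exact ((h i).continuous.comp continuous_fst).mul (continuous_snd.pow i)

theorem continuous_Sfun (m : ℕ) (h : ℕ → ℝ[X]) :
    Continuous fun p : ℝ × ℝ × ℝ => Sfun m h p.1 p.2.1 p.2.2 := by
  unfold Sfun
  refine (continuous_finsetSum _ fun j _ => ?_).add (continuous_finsetSum _ fun i _ => ?_)
  · exact ((continuous_fst.comp continuous_snd).pow j).mul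
      ((continuous_snd.comp continuous_snd).pow _)
  · refine ((h i).continuous.comp continuous_fst).mul (continuous_finsetSum _ fun j _ => ?_)
    exact ((continuous_fst.comp continuous_snd).pow j).mul
      ((continuous_snd.comp continuous_snd).pow _)

/-- Cauchy bound, uniform for `t ∈ [0,1]`. -/
theorem exists_bound (m : ℕ) (h : ℕ → ℝ[X]) :
    ∃ B : ℝ, ∀ t ∈ Set.Icc (0 : ℝ) 1, ∀ ξ, Hfun m h t ξ = 0 → |ξ| ≤ B := by
  have hc : Continuous fun t : ℝ => ∑ i ∈ range m, |(h i).eval t| :=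
    continuous_finsetSum _ fun i _ => continuous_abs.comp (h i).continuous
  obtain ⟨B₀, hB₀⟩ := isCompact_Icc.exists_bound_of_continuousOn (s := Set.Icc (0 : ℝ) 1)
    hc.continuousOn
  refine ⟨max 1 B₀, fun t ht ξ hξ => ?_⟩
  by_contra hcon
  push Not at hcon
  have h1 : 1 < |ξ| := (le_max_left _ _).trans_lt hcon
  have h2 : B₀ < |ξ| := (le_max_right _ _).trans_lt hcon
  have hB := hB₀ t ht
  rw [Real.norm_eq_abs] at hB
  have hB' : ∑ i ∈ range m, |(h i).eval t| ≤ B₀ := (le_abs_self _).trans hB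
  cases m with
  | zero => simp [Hfun] at hξ
  | succ m' =>
    have e : ξ ^ (m' + 1) = - ∑ i ∈ range (m' + 1), (h i).eval t * ξ ^ i := by
      unfold Hfun at hξ; linarith
    have hpos : 0 < |ξ| ^ m' := pow_pos (by linarith) _
    have key : |ξ| ^ (m' + 1) ≤ B₀ * |ξ| ^ m' := by
      calc |ξ| ^ (m' + 1) = |ξ ^ (m' + 1)| := (abs_pow _ _).symm
        _ = |∑ i ∈ range (m' + 1), (h i).eval t * ξ ^ i| := by rw [e, abs_neg]
        _ ≤ ∑ i ∈ range (m' + 1), |(h i).eval t * ξ ^ i| := Finset.abs_sum_le_sum_abs _ _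
        _ ≤ ∑ i ∈ range (m' + 1), |(h i).eval t| * |ξ| ^ m' := by
            refine Finset.sum_le_sum fun i hi => ?_
            rw [abs_mul, abs_pow]
            refine mul_le_mul_of_nonneg_left ?_ (abs_nonneg _)
            exact pow_le_pow_right₀ h1.le (Nat.lt_succ_iff.1 (Finset.mem_range.1 hi))
        _ = (∑ i ∈ range (m' + 1), |(h i).eval t|) * |ξ| ^ m' := by rw [Finset.sum_mul]
        _ ≤ B₀ * |ξ| ^ m' := mul_le_mul_of_nonneg_right hB' hpos.le
    have : |ξ| ^ (m' + 1) = |ξ| * |ξ| ^ m' := by ring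
    rw [this] at key
    have := le_of_mul_le_mul_right key hpos
    linarith

/-- Localisation: for small `t > 0`, every real root of `H(t, ·)` is within `δ ρ` of some real
root `ρ` of `H(0, ·)`. -/
theorem eventually_near_root (m : ℕ) (h : ℕ → ℝ[X]) (δ : ℝ → ℝ)
    (hδ : ∀ ρ, Hfun m h 0 ρ = 0 → 0 < δ ρ) :
    ∀ᶠ t in 𝓝[>] (0 : ℝ), ∀ ξ, Hfun m h t ξ = 0 →
      ∃ ρ, Hfun m h 0 ρ = 0 ∧ |ξ - ρ| < δ ρ := by
  obtain ⟨B, hB⟩ := exists_bound m h
  set K : Set (ℝ × ℝ) := (Set.Icc (0 : ℝ) 1 ×ˢ Metric.closedBall (0 : ℝ) B) ∩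
    ({p | Hfun m h p.1 p.2 = 0} ∩ ⋂ ρ ∈ {ρ | Hfun m h 0 ρ = 0}, {p : ℝ × ℝ | δ ρ ≤ |p.2 - ρ|})
    with hK
  have hKc : IsCompact K := by
    refine (isCompact_Icc.prod (isCompact_closedBall _ _)).inter_right ?_
    refine (isClosed_eq (continuous_Hfun m h) continuous_const).inter ?_
    refine isClosed_biInter fun ρ _ => ?_
    exact isClosed_le continuous_const (continuous_abs.comp (continuous_snd.sub continuous_const))
  have hmemK : ∀ t ξ, 0 ≤ t → t ≤ 1 → Hfun m h t ξ = 0 →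
      (¬ ∃ ρ, Hfun m h 0 ρ = 0 ∧ |ξ - ρ| < δ ρ) → (t, ξ) ∈ K := by
    intro t ξ ht0 ht1 hξ hno
    push Not at hno
    refine ⟨⟨⟨ht0, ht1⟩, ?_⟩, hξ, ?_⟩
    · rw [Metric.mem_closedBall, dist_zero_right, Real.norm_eq_abs]
      exact hB t ⟨ht0, ht1⟩ ξ hξ
    · simp only [Set.mem_iInter, Set.mem_ofPred_eq]
      exact fun ρ hρ => hno ρ hρ
  rcases K.eq_empty_or_nonempty with hempty | hne
  · have : Set.Ioc (0 : ℝ) 1 ∈ 𝓝[>] (0 : ℝ) := Ioc_mem_nhdsGT one_pos
    filter_upwards [this] with t ht ξ hξ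
    by_contra hno
    have := hmemK t ξ ht.1.le ht.2 hξ hno
    rw [hempty] at this
    exact this
  · obtain ⟨p₀, hp₀, hmin⟩ := hKc.exists_isMinOn hne (continuous_fst.continuousOn)
    have hp₀pos : 0 < p₀.1 := by
      rcases (hp₀.1.1.1 : (0 : ℝ) ≤ p₀.1).lt_or_eq with hlt | heq
      · exact hlt
      · exfalso
        have hroot : Hfun m h 0 p₀.2 = 0 := by
          have := hp₀.2.1
          simp only [Set.mem_ofPred_eq] at this
          rw [← heq] at this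
          exact this
        have hfar := hp₀.2.2
        simp only [Set.mem_iInter, Set.mem_ofPred_eq] at hfar
        have := hfar p₀.2 hroot
        rw [sub_self, abs_zero] at this
        exact absurd (hδ _ hroot) (not_lt.2 this)
    have hp₀le : p₀.1 ≤ 1 := hp₀.1.1.2
    have : Set.Ioo (0 : ℝ) p₀.1 ∈ 𝓝[>] (0 : ℝ) := Ioo_mem_nhdsGT hp₀pos
    filter_upwards [this] with t ht ξ hξ
    by_contra hno
    have hmem := hmemK t ξ ht.1.le (ht.2.le.trans hp₀le) hξ hno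
    have := hmin hmem
    simp only [Set.mem_ofPred_eq] at this
    linarith [ht.2]

/-- Closeness to a formal branch near a simple root. -/
theorem eventually_close_branch (m : ℕ) (h : ℕ → ℝ[X]) (ρ : ℝ)
    (hsimple : Sfun m h 0 ρ ρ ≠ 0) (k : ℕ) (P : ℝ[X]) (hP0 : P.eval 0 = ρ)
    (hP : X ^ (k + 1) ∣ P ^ m + ∑ i ∈ range m, h i * P ^ i) :
    ∃ δ : ℝ, 0 < δ ∧ ∃ C : ℝ, ∀ᶠ t in 𝓝[>] (0 : ℝ), ∀ ξ, |ξ - ρ| < δ → Hfun m h t ξ = 0 →
      |ξ - P.eval t| ≤ C * t ^ (k + 1) := by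
  obtain ⟨A, hA⟩ := hP
  set lam := Sfun m h 0 ρ ρ with hlam
  have hlampos : 0 < |lam| := abs_pos.2 hsimple
  -- continuity of the divided difference at `(0, ρ, ρ)`
  have hS : ∀ᶠ p : ℝ × ℝ × ℝ in 𝓝 ((0 : ℝ), ρ, ρ), |lam| / 2 < |Sfun m h p.1 p.2.1 p.2.2| := by
    have hc : ContinuousAt (fun p : ℝ × ℝ × ℝ => |Sfun m h p.1 p.2.1 p.2.2|) ((0 : ℝ), ρ, ρ) :=
      (continuous_abs.comp (continuous_Sfun m h)).continuousAt
    exact hc.eventually (lt_mem_nhds (by simpa [hlam] using half_lt_self hlampos))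
  obtain ⟨ε, hε, hball⟩ := Metric.eventually_nhds_iff.1 hS
  -- continuity of `P` at `0`
  have hPc : ∀ᶠ t in 𝓝 (0 : ℝ), |P.eval t - ρ| < ε := by
    have hc : ContinuousAt (fun t : ℝ => |P.eval t - ρ|) 0 :=
      (continuous_abs.comp (P.continuous.sub continuous_const)).continuousAt
    have h0 : |P.eval 0 - ρ| < ε := by rw [hP0, sub_self, abs_zero]; exact hε
    exact hc.eventually (gt_mem_nhds h0)
  -- bound for `A` on `[0,1]`
  obtain ⟨CA, hCA⟩ := isCompact_Icc.exists_bound_of_continuousOn (s := Set.Icc (0 : ℝ) 1)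
    A.continuous.continuousOn
  refine ⟨ε, hε, CA / (|lam| / 2), ?_⟩
  have h1 : Set.Ioo (0 : ℝ) (min ε 1) ∈ 𝓝[>] (0 : ℝ) := Ioo_mem_nhdsGT (lt_min hε one_pos)
  filter_upwards [h1, nhdsWithin_le_nhds hPc] with t ht hPt ξ hξρ hξ
  have ht0 : 0 < t := ht.1
  have htε : t < ε := ht.2.trans_le (min_le_left _ _)
  have ht1 : t ≤ 1 := (ht.2.trans_le (min_le_right _ _)).le
  have hSlow : |lam| / 2 < |Sfun m h t ξ (P.eval t)| := by
    have := @hball (t, ξ, P.eval t) (by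
      rw [Prod.dist_eq, Prod.dist_eq]
      simp only [Real.dist_eq, sub_zero]
      refine max_lt ?_ (max_lt hξρ hPt)
      rw [abs_of_pos ht0]; exact htε)
    exact this
  have hHP : Hfun m h t (P.eval t) = t ^ (k + 1) * A.eval t := by
    have := congrArg (Polynomial.eval t) hA
    simp only [eval_add, eval_pow, eval_finsetSum, eval_mul, eval_X] at this
    unfold Hfun
    exact this
  have hdiff := Hfun_sub m h t ξ (P.eval t)
  rw [hξ, hHP, zero_sub] at hdiff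
  have hAb : |A.eval t| ≤ CA := by
    have := hCA t ⟨ht0.le, ht1⟩
    rwa [Real.norm_eq_abs] at this
  have hSpos : 0 < |Sfun m h t ξ (P.eval t)| := (half_pos hlampos).trans hSlow
  have habs : |Sfun m h t ξ (P.eval t)| * |ξ - P.eval t| = t ^ (k + 1) * |A.eval t| := by
    rw [← abs_mul, ← hdiff, abs_neg, abs_mul, abs_of_pos (pow_pos ht0 _)]
  have hCAnn : 0 ≤ CA := (abs_nonneg _).trans hAb
  rw [div_mul_eq_mul_div, le_div_iff₀ (half_pos hlampos)]
  calc |ξ - P.eval t| * (|lam| / 2) ≤ |ξ - P.eval t| * |Sfun m h t ξ (P.eval t)| :=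
        mul_le_mul_of_nonneg_left hSlow.le (abs_nonneg _)
    _ = t ^ (k + 1) * |A.eval t| := by rw [mul_comm, habs]
    _ ≤ t ^ (k + 1) * CA := mul_le_mul_of_nonneg_left hAb (pow_pos ht0 _).le
    _ = CA * t ^ (k + 1) := mul_comm _ _

end

end Fermat.Agent.S52.B3.H141
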