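import Fermat.Agent.S52.B3.H141.Branch
import Fermat.Agent.S52.B3.H141.FinDiff
import Fermat.Agent.S52.B3.H141.Real

/-!
# S52 / B3-core, part 4: set-up for the abstract Hilbert irreducibility statement

`G(n, u) = u ^ m + ∑_{i<m} g_i(n) u ^ i`, `g_i ∈ ℤ[n]`, `deg g_i ≤ (m - i) d`.
With `t = 1/n`, `ξ = u / n ^ d`:  `G(n, u) = n ^ (m d) · H(t, ξ)`, `H(t, ξ) = ξ ^ m + ∑ h_i(t) ξ ^ i`,
`h_i = reflect ((m - i) d) g_i`, and `H(0, ·)` is the limit polynomial `G∞`.
-/

namespace Fermat.Agent.S52.B3.H141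

open Polynomial Filter Topology Finset

noncomputable section

/-- coefficient polynomials mapped to `K` -/
def gK (K : Type*) [Field K] (g : ℕ → ℤ[X]) (i : ℕ) : K[X] := (g i).map (Int.castRingHom K)

/-- reflected coefficient polynomials -/
def hK (K : Type*) [Field K] (m d : ℕ) (g : ℕ → ℤ[X]) (i : ℕ) : K[X] :=
  reflect ((m - i) * d) (gK K g i)

/-- the limit polynomial `G∞` over `K` -/
def GinfK (K : Type*) [Field K] (m d : ℕ) (g : ℕ → ℤ[X]) : K[X] :=
  X ^ m + ∑ i ∈ range m, C (((g i).coeff ((m - i) * d) : ℤ) : K) * X ^ i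

/-- the bivariate polynomial `H` as an element of `K[t][ξ]` -/
def FK (K : Type*) [Field K] (m d : ℕ) (g : ℕ → ℤ[X]) : K[X][X] :=
  X ^ m + ∑ i ∈ range m, C (hK K m d g i) * X ^ i

variable {K : Type*} [Field K] (m d : ℕ) (g : ℕ → ℤ[X])

theorem hK_eval_zero (i : ℕ) :
    (hK K m d g i).eval 0 = (((g i).coeff ((m - i) * d) : ℤ) : K) := by
  rw [← coeff_zero_eq_eval_zero, hK, coeff_reflect, revAt_le (Nat.zero_le _), Nat.sub_zero, gK,
    coeff_map]
  simp

theorem FK_map_eval0 : (FK K m d g).map (evalRingHom (0 : K)) = GinfK K m d g := by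
  unfold FK GinfK
  simp only [Polynomial.map_add, Polynomial.map_pow, map_X, Polynomial.map_sum,
    Polynomial.map_mul, map_C, coe_evalRingHom, hK_eval_zero]

theorem FK_eval (P : K[X]) :
    (FK K m d g).eval P = P ^ m + ∑ i ∈ range m, hK K m d g i * P ^ i := by
  unfold FK
  simp only [eval_add, eval_pow, eval_X, eval_finsetSum, eval_mul, eval_C]

theorem gK_map (i : ℕ) : (gK ℚ g i).map (algebraMap ℚ ℝ) = gK ℝ g i := by
  unfold gK
  rw [Polynomial.map_map, RingHom.ext_int ((algebraMap ℚ ℝ).comp (Int.castRingHom ℚ))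
    (Int.castRingHom ℝ)]

theorem hK_map (i : ℕ) : (hK ℚ m d g i).map (algebraMap ℚ ℝ) = hK ℝ m d g i := by
  unfold hK
  rw [← reflect_map, gK_map]

theorem GinfK_map : (GinfK ℚ m d g).map (algebraMap ℚ ℝ) = GinfK ℝ m d g := by
  unfold GinfK
  simp only [Polynomial.map_add, Polynomial.map_pow, map_X, Polynomial.map_sum,
    Polynomial.map_mul, map_C, eq_ratCast, Rat.cast_intCast]

theorem Hfun_zero (ρ : ℝ) : Hfun m (hK ℝ m d g) 0 ρ = (GinfK ℝ m d g).eval ρ := by
  unfold Hfun GinfK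
  simp only [eval_add, eval_pow, eval_X, eval_finsetSum, eval_mul, eval_C, hK_eval_zero]

theorem sum_pow_mul_pow_diag {R : Type*} [CommRing R] (ρ : R) (i : ℕ) :
    ∑ j ∈ range i, ρ ^ j * ρ ^ (i - 1 - j) = (i : R) * ρ ^ (i - 1) := by
  have : ∀ j ∈ range i, ρ ^ j * ρ ^ (i - 1 - j) = ρ ^ (i - 1) := by
    intro j hj
    rw [← pow_add]
    congr 1
    have := Finset.mem_range.1 hj
    omega
  rw [Finset.sum_congr rfl this, Finset.sum_const, Finset.card_range, nsmul_eq_mul]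

theorem Sfun_zero (ρ : ℝ) :
    Sfun m (hK ℝ m d g) 0 ρ ρ = (derivative (GinfK ℝ m d g)).eval ρ := by
  unfold Sfun GinfK
  simp only [sum_pow_mul_pow_diag, hK_eval_zero, derivative_add, derivative_X_pow,
    derivative_sum, derivative_C_mul, eval_add, eval_mul, eval_C, eval_pow, eval_X,
    eval_finsetSum]

theorem GinfK_ne_zero : GinfK K m d g ≠ 0 := by
  intro h0
  have := congrArg (fun p => p.coeff m) h0
  simp only [GinfK, coeff_add, coeff_X_pow, if_true, finsetSum_coeff, coeff_C_mul,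
    coeff_zero] at this
  rw [Finset.sum_eq_zero] at this
  · simp at this
  · intro i hi
    have : m ≠ i := (Finset.mem_range.1 hi).ne'
    simp [this]

theorem hK_eval_inv (hdeg : ∀ i < m, (g i).natDegree ≤ (m - i) * d) (i : ℕ) (hi : i < m)
    (x : ℝ) (hx : x ≠ 0) :
    (hK ℝ m d g i).eval x⁻¹ * x ^ ((m - i) * d) = (gK ℝ g i).eval x := by
  let _ : Invertible x := invertibleOfNonzero hx
  have h := eval₂_reflect_mul_pow (RingHom.id ℝ) x ((m - i) * d) (gK ℝ g i)
    (natDegree_map_le.trans (hdeg i hi))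
  rw [invOf_eq_inv] at h
  simpa [eval₂_id, hK] using h

theorem reflect_eval_inv (k : ℕ) (P : ℝ[X]) (hP : P.natDegree ≤ k) (x : ℝ) (hx : x ≠ 0) :
    (reflect k P).eval x = P.eval x⁻¹ * x ^ k := by
  let _ : Invertible x⁻¹ := invertibleOfNonzero (inv_ne_zero hx)
  have h := eval₂_reflect_mul_pow (RingHom.id ℝ) x⁻¹ k P hP
  rw [invOf_eq_inv, inv_inv] at h
  have h' : (reflect k P).eval x * x⁻¹ ^ k = P.eval x⁻¹ := by simpa [eval₂_id] using h
  rw [← h', mul_assoc, ← mul_pow, inv_mul_cancel₀ hx, one_pow, mul_one]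

/-- `G(x, u) = x ^ (m d) · H(1/x, u / x ^ d)`. -/
theorem G_eq_H (hdeg : ∀ i < m, (g i).natDegree ≤ (m - i) * d) (x : ℝ) (hx : x ≠ 0) (u : ℝ) :
    u ^ m + ∑ i ∈ range m, (gK ℝ g i).eval x * u ^ i
      = x ^ (m * d) * Hfun m (hK ℝ m d g) x⁻¹ (u / x ^ d) := by
  unfold Hfun
  rw [mul_add, Finset.mul_sum]
  have hxd : x ^ d ≠ 0 := pow_ne_zero _ hx
  congr 1
  · rw [div_pow, ← pow_mul, mul_comm d m, mul_div_cancel₀ _ (pow_ne_zero _ hx)]
  · refine Finset.sum_congr rfl fun i hi => ?_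
    have hi' := Finset.mem_range.1 hi
    rw [← hK_eval_inv m d g hdeg i hi' x hx]
    have e : m * d = (m - i) * d + i * d := by
      rw [← Nat.add_mul, Nat.sub_add_cancel hi'.le]
    rw [e, pow_add, div_pow, ← pow_mul, mul_comm d i]
    field_simp

end

end Fermat.Agent.S52.B3.H141
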